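import Mathlib

/-!
# Euler characteristic of a pair of subspaces

For `K`-subspaces `M`, `N` of a vector space `V` we say `IsChi M N c` when `M ⊓ N` and
`V ⧸ (M ⊔ N)` are finite-dimensional and `dim (M ⊓ N) - dim (V ⧸ (M ⊔ N)) = c`.  The key fact
is additivity: enlarging `N` by a finite-dimensional amount `d` raises `c` by `d`
(`IsChi.up_right`, `IsChi.down_right`, and the symmetric versions).

This is the linear-algebra core of the Riemann–Roch theorem for lattices on the projective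
line used in `GenusDisc`.
-/

set_option autoImplicit false

namespace Fermat.Agent.Lib.FF.GenusDisc

open Module

section FiveTerm

variable {K : Type*} [Field K]
variable {A₁ A₂ Q B₁ B₂ : Type*} [AddCommGroup A₁] [Module K A₁] [AddCommGroup A₂]
  [Module K A₂] [AddCommGroup Q] [Module K Q] [AddCommGroup B₁] [Module K B₁]
  [AddCommGroup B₂] [Module K B₂]

/-- Dimension count in a five-term exact sequence `0 → A₁ → A₂ → Q → B₁ → B₂ → 0`. -/
theorem five_term_finrank (i : A₁ →ₗ[K] A₂) (φ : A₂ →ₗ[K] Q) (ψ : Q →ₗ[K] B₁)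
    (π : B₁ →ₗ[K] B₂) (hi : Function.Injective i)
    (h1 : LinearMap.range i = LinearMap.ker φ) (h2 : LinearMap.range φ = LinearMap.ker ψ)
    (h3 : LinearMap.range ψ = LinearMap.ker π) (hπ : Function.Surjective π)
    [FiniteDimensional K A₁] [FiniteDimensional K A₂] [FiniteDimensional K Q]
    [FiniteDimensional K B₁] [FiniteDimensional K B₂] :
    (finrank K A₂ : ℤ) - finrank K B₂ = finrank K A₁ - finrank K B₁ + finrank K Q := by
  have e1 : finrank K A₁ = finrank K (LinearMap.ker φ) := by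
    rw [← h1]; exact (LinearMap.finrank_range_of_inj hi).symm
  have e2 := LinearMap.finrank_range_add_finrank_ker φ
  have e3 := LinearMap.finrank_range_add_finrank_ker ψ
  have e4 := LinearMap.finrank_range_add_finrank_ker π
  have e5 : finrank K (LinearMap.range π) = finrank K B₂ := by
    rw [LinearMap.range_eq_top.mpr hπ]; exact finrank_top K B₂
  rw [h2] at e2
  rw [h3] at e3
  omega

/-- A module is finite-dimensional if the kernel and the range of a map out of it are. -/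
theorem finiteDimensional_of_ker_range {A B : Type*} [AddCommGroup A] [Module K A]
    [AddCommGroup B] [Module K B] (f : A →ₗ[K] B) [FiniteDimensional K (LinearMap.ker f)]
    [FiniteDimensional K (LinearMap.range f)] : FiniteDimensional K A := by
  have : FiniteDimensional K (A ⧸ LinearMap.ker f) :=
    Module.Finite.equiv f.quotKerEquivRange.symm
  exact Module.Finite.of_submodule_quotient (LinearMap.ker f)

theorem five_term_up (i : A₁ →ₗ[K] A₂) (φ : A₂ →ₗ[K] Q) (π : B₁ →ₗ[K] B₂)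
    (h1 : LinearMap.range i = LinearMap.ker φ) (hπ : Function.Surjective π)
    [FiniteDimensional K A₁] [FiniteDimensional K Q] [FiniteDimensional K B₁] :
    FiniteDimensional K A₂ ∧ FiniteDimensional K B₂ := by
  refine ⟨?_, Module.Finite.of_surjective π hπ⟩
  have : FiniteDimensional K (LinearMap.ker φ) := by
    rw [← h1]; infer_instance
  exact finiteDimensional_of_ker_range φ

theorem five_term_down (i : A₁ →ₗ[K] A₂) (ψ : Q →ₗ[K] B₁) (π : B₁ →ₗ[K] B₂)
    (hi : Function.Injective i) (h3 : LinearMap.range ψ = LinearMap.ker π)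
    [FiniteDimensional K A₂] [FiniteDimensional K Q] [FiniteDimensional K B₂] :
    FiniteDimensional K A₁ ∧ FiniteDimensional K B₁ := by
  refine ⟨FiniteDimensional.of_injective i hi, ?_⟩
  have : FiniteDimensional K (LinearMap.ker π) := by
    rw [← h3]; infer_instance
  exact finiteDimensional_of_ker_range π

end FiveTerm

section Chi

variable {K V : Type*} [Field K] [AddCommGroup V] [Module K V]

/-- `IsChi M N c`: `M ⊓ N` and `V ⧸ (M ⊔ N)` are finite-dimensional and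
`dim (M ⊓ N) - dim (V ⧸ (M ⊔ N)) = c`. -/
def IsChi (M N : Submodule K V) (c : ℤ) : Prop :=
  FiniteDimensional K ↥(M ⊓ N) ∧ FiniteDimensional K (V ⧸ (M ⊔ N)) ∧
    (finrank K ↥(M ⊓ N) : ℤ) - finrank K (V ⧸ (M ⊔ N)) = c

/-- `IsIndex N₁ N₂ d`: `N₁ ≤ N₂` and `N₂ / N₁` has dimension `d`. -/
def IsIndex (N₁ N₂ : Submodule K V) (d : ℕ) : Prop :=
  N₁ ≤ N₂ ∧ FiniteDimensional K (↥N₂ ⧸ N₁.submoduleOf N₂) ∧
    finrank K (↥N₂ ⧸ N₁.submoduleOf N₂) = d

theorem IsChi.symm {M N : Submodule K V} {c : ℤ} (h : IsChi M N c) : IsChi N M c := by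
  unfold IsChi at *
  rwa [inf_comm, sup_comm]

theorem IsChi.congr {M N : Submodule K V} {c c' : ℤ} (h : IsChi M N c) (hc : c = c') :
    IsChi M N c' := hc ▸ h

theorem IsChi.unique {M N : Submodule K V} {c c' : ℤ} (h : IsChi M N c) (h' : IsChi M N c') :
    c = c' := h.2.2.symm.trans h'.2.2

theorem mem_submoduleOf_iff {N₁ N₂ : Submodule K V} {y : ↥N₂} :
    y ∈ N₁.submoduleOf N₂ ↔ (y : V) ∈ N₁ := Iff.rfl

section Maps

variable (M : Submodule K V) {N₁ N₂ : Submodule K V} (hle : N₁ ≤ N₂)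

/-- The map `M ⊓ N₁ → M ⊓ N₂`. -/
def chiI : ↥(M ⊓ N₁) →ₗ[K] ↥(M ⊓ N₂) := Submodule.inclusion (inf_le_inf_left M hle)

/-- The map `M ⊓ N₂ → N₂ / N₁`. -/
def chiPhi (N₁ N₂ : Submodule K V) : ↥(M ⊓ N₂) →ₗ[K] (↥N₂ ⧸ N₁.submoduleOf N₂) :=
  (N₁.submoduleOf N₂).mkQ ∘ₗ Submodule.inclusion inf_le_right

/-- The map `N₂ / N₁ → V / (M + N₁)`. -/
def chiPsi (N₁ N₂ : Submodule K V) : (↥N₂ ⧸ N₁.submoduleOf N₂) →ₗ[K] V ⧸ (M ⊔ N₁) :=
  (N₁.submoduleOf N₂).liftQ ((M ⊔ N₁).mkQ ∘ₗ N₂.subtype) (by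
    intro y hy
    rw [mem_submoduleOf_iff] at hy
    rw [LinearMap.mem_ker, LinearMap.comp_apply, Submodule.mkQ_apply,
      Submodule.Quotient.mk_eq_zero]
    exact Submodule.mem_sup_right hy)

/-- The map `V / (M + N₁) → V / (M + N₂)`. -/
def chiPi : V ⧸ (M ⊔ N₁) →ₗ[K] V ⧸ (M ⊔ N₂) :=
  (M ⊔ N₁).mapQ (M ⊔ N₂) LinearMap.id (by
    rw [Submodule.comap_id]; exact sup_le_sup_left hle M)

theorem chiI_injective : Function.Injective (chiI M hle) :=
  Submodule.inclusion_injective _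

theorem chiPi_surjective : Function.Surjective (chiPi M hle) := by
  intro q
  obtain ⟨v, rfl⟩ := Submodule.mkQ_surjective _ q
  exact ⟨(M ⊔ N₁).mkQ v, rfl⟩

theorem range_chiI : LinearMap.range (chiI M hle) = LinearMap.ker (chiPhi M N₁ N₂) := by
  ext ⟨y, hy⟩
  rw [LinearMap.mem_ker, chiPhi, LinearMap.comp_apply, Submodule.mkQ_apply,
    Submodule.Quotient.mk_eq_zero, mem_submoduleOf_iff]
  constructor
  · rintro ⟨⟨z, hz⟩, hzy⟩
    have : z = y := congrArg Subtype.val hzy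
    subst this
    exact hz.2
  · intro h
    exact ⟨⟨y, hy.1, h⟩, rfl⟩

include hle in
theorem range_chiPhi :
    LinearMap.range (chiPhi M N₁ N₂) = LinearMap.ker (chiPsi M N₁ N₂) := by
  ext q
  obtain ⟨⟨y, hy⟩, rfl⟩ := Submodule.mkQ_surjective _ q
  have hker : (N₁.submoduleOf N₂).mkQ ⟨y, hy⟩ ∈ LinearMap.ker (chiPsi M N₁ N₂) ↔ y ∈ M ⊔ N₁ := by
    rw [LinearMap.mem_ker, chiPsi, Submodule.mkQ_apply, Submodule.liftQ_apply,
      LinearMap.comp_apply, Submodule.mkQ_apply, Submodule.Quotient.mk_eq_zero]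
    rfl
  rw [hker]
  constructor
  · rintro ⟨⟨z, hz⟩, hzy⟩
    rw [chiPhi, LinearMap.comp_apply, Submodule.mkQ_apply, Submodule.mkQ_apply,
      Submodule.Quotient.eq, mem_submoduleOf_iff] at hzy
    have h1 : z - y ∈ N₁ := hzy
    have : y = z - (z - y) := by abel
    rw [this]
    exact Submodule.sub_mem _ (Submodule.mem_sup_left hz.1) (Submodule.mem_sup_right h1)
  · intro h
    obtain ⟨m, hm, n₁, hn₁, rfl⟩ := Submodule.mem_sup.mp h
    have hmN₂ : m ∈ N₂ := by
      have : m = (m + n₁) - n₁ := by abel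
      rw [this]
      exact Submodule.sub_mem _ hy (hle hn₁)
    refine ⟨⟨m, hm, hmN₂⟩, ?_⟩
    rw [chiPhi, LinearMap.comp_apply, Submodule.mkQ_apply, Submodule.mkQ_apply,
      Submodule.Quotient.eq, mem_submoduleOf_iff]
    show m - (m + n₁) ∈ N₁
    have : m - (m + n₁) = -n₁ := by abel
    rw [this]
    exact Submodule.neg_mem _ hn₁

theorem range_chiPsi : LinearMap.range (chiPsi M N₁ N₂) = LinearMap.ker (chiPi M hle) := by
  ext q
  obtain ⟨v, rfl⟩ := Submodule.mkQ_surjective _ q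
  have hker : (M ⊔ N₁).mkQ v ∈ LinearMap.ker (chiPi M hle) ↔ v ∈ M ⊔ N₂ := by
    rw [LinearMap.mem_ker, chiPi, Submodule.mkQ_apply, Submodule.mapQ_apply,
      Submodule.Quotient.mk_eq_zero]
    rfl
  rw [hker]
  constructor
  · rintro ⟨q', hq'⟩
    obtain ⟨⟨y, hy⟩, rfl⟩ := Submodule.mkQ_surjective _ q'
    rw [chiPsi, Submodule.mkQ_apply, Submodule.liftQ_apply, LinearMap.comp_apply,
      Submodule.mkQ_apply, Submodule.mkQ_apply, Submodule.Quotient.eq] at hq'
    have h1 : y - v ∈ M ⊔ N₁ := hq'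
    have : v = y - (y - v) := by abel
    rw [this]
    exact Submodule.sub_mem _ (Submodule.mem_sup_right hy) (sup_le_sup_left hle M h1)
  · intro h
    obtain ⟨m, hm, n₂, hn₂, rfl⟩ := Submodule.mem_sup.mp h
    refine ⟨(N₁.submoduleOf N₂).mkQ ⟨n₂, hn₂⟩, ?_⟩
    rw [chiPsi, Submodule.mkQ_apply, Submodule.liftQ_apply, LinearMap.comp_apply,
      Submodule.mkQ_apply, Submodule.mkQ_apply, Submodule.Quotient.eq]
    show n₂ - (m + n₂) ∈ M ⊔ N₁
    have : n₂ - (m + n₂) = -m := by abel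
    rw [this]
    exact Submodule.neg_mem _ (Submodule.mem_sup_left hm)

end Maps

/-- Enlarging the second subspace by `d` dimensions raises the Euler characteristic by `d`. -/
theorem IsChi.up_right {M N₁ N₂ : Submodule K V} {c : ℤ} {d : ℕ} (h : IsChi M N₁ c)
    (hd : IsIndex N₁ N₂ d) : IsChi M N₂ (c + d) := by
  obtain ⟨hle, hfd, hdim⟩ := hd
  obtain ⟨hA, hB, hc⟩ := h
  obtain ⟨hA₂, hB₂⟩ := five_term_up (chiI M hle) (chiPhi M N₁ N₂) (chiPi M hle)
    (range_chiI M hle) (chiPi_surjective M hle)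
  refine ⟨hA₂, hB₂, ?_⟩
  have := five_term_finrank (chiI M hle) (chiPhi M N₁ N₂) (chiPsi M N₁ N₂) (chiPi M hle)
    (chiI_injective M hle) (range_chiI M hle) (range_chiPhi M hle) (range_chiPsi M hle)
    (chiPi_surjective M hle)
  rw [this, hdim, hc]

/-- Shrinking the second subspace by `d` dimensions lowers the Euler characteristic by `d`. -/
theorem IsChi.down_right {M N₁ N₂ : Submodule K V} {c : ℤ} {d : ℕ} (h : IsChi M N₂ c)
    (hd : IsIndex N₁ N₂ d) : IsChi M N₁ (c - d) := by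
  obtain ⟨hle, hfd, hdim⟩ := hd
  obtain ⟨hA, hB, hc⟩ := h
  obtain ⟨hA₁, hB₁⟩ := five_term_down (chiI M hle) (chiPsi M N₁ N₂) (chiPi M hle)
    (chiI_injective M hle) (range_chiPsi M hle)
  refine ⟨hA₁, hB₁, ?_⟩
  have := five_term_finrank (chiI M hle) (chiPhi M N₁ N₂) (chiPsi M N₁ N₂) (chiPi M hle)
    (chiI_injective M hle) (range_chiI M hle) (range_chiPhi M hle) (range_chiPsi M hle)
    (chiPi_surjective M hle)
  rw [hdim, hc] at this
  linarith

theorem IsChi.up_left {M₁ M₂ N : Submodule K V} {c : ℤ} {d : ℕ} (h : IsChi M₁ N c)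
    (hd : IsIndex M₁ M₂ d) : IsChi M₂ N (c + d) :=
  (h.symm.up_right hd).symm

theorem IsChi.down_left {M₁ M₂ N : Submodule K V} {c : ℤ} {d : ℕ} (h : IsChi M₂ N c)
    (hd : IsIndex M₁ M₂ d) : IsChi M₁ N (c - d) :=
  (h.symm.down_right hd).symm

/-- Transport of an index along a linear equivalence onto the larger subspace. -/
theorem IsIndex.of_equiv {W : Type*} [AddCommGroup W] [Module K W] {N₁ N₂ : Submodule K V}
    (e : W ≃ₗ[K] ↥N₂) (p : Submodule K W) (hp : ∀ w : W, w ∈ p ↔ (e w : V) ∈ N₁)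
    (hle : N₁ ≤ N₂) [FiniteDimensional K (W ⧸ p)] {d : ℕ} (hd : finrank K (W ⧸ p) = d) :
    IsIndex N₁ N₂ d := by
  have hmap : p.map (e : W →ₗ[K] ↥N₂) = N₁.submoduleOf N₂ := by
    ext y
    rw [Submodule.mem_map, mem_submoduleOf_iff]
    constructor
    · rintro ⟨w, hw, rfl⟩
      exact (hp w).mp hw
    · intro hy
      refine ⟨e.symm y, (hp _).mpr ?_, by simp⟩
      simpa using hy
  let E : (W ⧸ p) ≃ₗ[K] (↥N₂ ⧸ N₁.submoduleOf N₂) := Submodule.Quotient.equiv p _ e hmap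
  exact ⟨hle, Module.Finite.equiv E, by rw [← hd]; exact E.finrank_eq.symm⟩

end Chi

end Fermat.Agent.Lib.FF.GenusDisc
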