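import Mathlib

/-!
# Index of a full-rank submodule of a free `K[X]`-module

For an endomorphism `f` of a finite free `K[X]`-module `M` with nonzero determinant, the
quotient `M ⧸ range f` is a finite-dimensional `K`-vector space of dimension
`natDegree (det f)`.
-/

set_option autoImplicit false

namespace Fermat.Agent.Lib.FF.GenusDisc

open Module Polynomial Submodule

variable {K : Type*} [Field K] {ι : Type*} [Fintype ι] [DecidableEq ι]
variable {M : Type*} [AddCommGroup M] [Module K[X] M] [Module K M] [IsScalarTower K K[X] M]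

theorem finrank_quotient_range_eq_natDegree_det (b : Basis ι K[X] M) (f : M →ₗ[K[X]] M)
    (hf : LinearMap.det f ≠ 0) :
    FiniteDimensional K (M ⧸ LinearMap.range f) ∧
      finrank K (M ⧸ LinearMap.range f) = (LinearMap.det f).natDegree := by
  have : Module.Free K[X] M := Module.Free.of_basis b
  have : Module.Finite K[X] M := Module.Finite.of_basis b
  have hinj : Function.Injective f := by
    rw [← LinearMap.ker_eq_bot]
    by_contra hker
    exact hf (LinearMap.det_eq_zero_iff_ker_ne_bot.mpr hker)
  set N := LinearMap.range f with hN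
  let e : M ≃ₗ[K[X]] N := LinearEquiv.ofInjective f hinj
  have h : finrank K[X] N = finrank K[X] M := e.symm.finrank_eq
  let a := smithNormalFormCoeffs b h
  let b' := smithNormalFormTopBasis b h
  let ab := smithNormalFormBotBasis b h
  have ab_eq := smithNormalFormBotBasis_def b h
  let e' : M ≃ₗ[K[X]] N := b'.equiv ab (Equiv.refl _)
  let f' : M →ₗ[K[X]] M := N.subtype.comp (e' : M →ₗ[K[X]] N)
  have hff' : Associated (LinearMap.det f) (LinearMap.det f') := by
    have : f = N.subtype ∘ₗ (e : M →ₗ[K[X]] N) := by ext x; rfl
    rw [this]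
    exact LinearMap.associated_det_comp_equiv _ _ _
  have ha : ∀ i, f' (b' i) = a i • b' i := by
    intro i
    show ((b'.equiv ab (Equiv.refl _)) (b' i) : M) = _
    rw [b'.equiv_apply, Equiv.refl_apply]
    exact ab_eq i
  have hdet : LinearMap.det f' = ∏ i, a i := by
    rw [← LinearMap.det_toMatrix b', ← Matrix.det_diagonal]
    congr 1; ext i j
    rw [LinearMap.toMatrix_apply, ha, map_smul, Basis.repr_self, Finsupp.smul_single,
      smul_eq_mul, mul_one]
    by_cases hij : i = j
    · rw [hij, Matrix.diagonal_apply_eq, Finsupp.single_eq_same]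
    · rw [Matrix.diagonal_apply_ne _ hij, Finsupp.single_eq_of_ne hij]
  have hane : ∀ i, a i ≠ 0 := smithNormalFormCoeffs_ne_zero b h
  have hfin : ∀ i, FiniteDimensional K (K[X] ⧸ Ideal.span ({a i} : Set K[X])) := fun i =>
    PowerBasis.finite (AdjoinRoot.powerBasis (hane i))
  have hrank : ∀ i, finrank K (K[X] ⧸ Ideal.span ({a i} : Set K[X])) = (a i).natDegree :=
    fun i => (AdjoinRoot.powerBasis (hane i)).finrank
  refine ⟨?_, ?_⟩
  · exact Module.Finite.equiv (quotientEquivDirectSum K b h).symm
  · rw [natDegree_eq_of_degree_eq (degree_eq_degree_of_associated hff'), hdet,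
      natDegree_prod _ _ fun i _ => hane i, finrank_quotient_eq_sum K b h]
    exact Finset.sum_congr rfl fun i _ => hrank i

end Fermat.Agent.Lib.FF.GenusDisc
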