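import Mathlib
import Fermat.Agent.Lib.FF.GenusDisc.Chi
import Fermat.Agent.Lib.FF.GenusDisc.PolyIndex

/-!
# Riemann–Roch for lattices on the projective line

Let `x ∈ F` be transcendental over `K` and `F` finite over `K(x)`.  For a `K(x)`-basis `b` of
`F` we consider the `K[x]`-lattice `polyLattice x b = ⊕ K[x] b i` and the lattice at infinity
`infLattice x b = ⊕ O_∞ b i`, where `O_∞ = {p(x)/q(x) : deg p ≤ deg q}`.  The main result
`isChi_polyLattice_infLattice` says that for two bases `b`, `b'`

  `dim (polyLattice b ⊓ infLattice b') - dim (F ⧸ (polyLattice b ⊔ infLattice b'))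
      = n + deg (det (b.toMatrix b'))`,

the Riemann–Roch theorem for vector bundles on the projective line.
-/

set_option autoImplicit false

noncomputable section

namespace Fermat.Agent.Lib.FF.GenusDisc

open IntermediateField Polynomial Module

variable {K F : Type*} [Field K] [Field F] [Algebra K F]

/-- `K[x]` as a `K`-subspace of `F`. -/
def polyRing (K : Type*) {F : Type*} [Field K] [Field F] [Algebra K F] (x : F) :
    Submodule K F :=
  LinearMap.range (aeval x : K[X] →ₐ[K] F).toLinearMap

theorem mem_polyRing {x z : F} : z ∈ polyRing K x ↔ ∃ p : K[X], aeval x p = z := Iff.rfl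

/-- The ring at infinity of `K(x)`: fractions `p(x)/q(x)` with `deg p ≤ deg q`, as a
`K`-subspace of `F`. -/
def infRing (K : Type*) {F : Type*} [Field K] [Field F] [Algebra K F] (x : F) :
    Submodule K F where
  carrier := {z | ∃ p q : K[X], q ≠ 0 ∧ p.natDegree ≤ q.natDegree ∧ z * aeval x q = aeval x p}
  zero_mem' := ⟨0, 1, one_ne_zero, by simp, by simp⟩
  add_mem' := by
    rintro z₁ z₂ ⟨p₁, q₁, hq₁, hd₁, h₁⟩ ⟨p₂, q₂, hq₂, hd₂, h₂⟩
    refine ⟨p₁ * q₂ + p₂ * q₁, q₁ * q₂, mul_ne_zero hq₁ hq₂, ?_, ?_⟩
    · rw [natDegree_mul hq₁ hq₂]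
      refine (natDegree_add_le _ _).trans (max_le ?_ ?_)
      · exact natDegree_mul_le.trans (by omega)
      · exact natDegree_mul_le.trans (by omega)
    · simp only [map_add, map_mul]
      rw [← h₁, ← h₂]
      ring
  smul_mem' := by
    rintro c z ⟨p, q, hq, hd, h⟩
    refine ⟨C c * p, q, hq, (natDegree_C_mul_le c p).trans hd, ?_⟩
    simp only [map_mul, aeval_C, Algebra.smul_def, ← h]
    ring

theorem mem_infRing {x z : F} : z ∈ infRing K x ↔
    ∃ p q : K[X], q ≠ 0 ∧ p.natDegree ≤ q.natDegree ∧ z * aeval x q = aeval x p := Iff.rfl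

/-- The constants `K ⊆ F` as a `K`-subspace. -/
def constRing (K F : Type*) [Field K] [Field F] [Algebra K F] : Submodule K F :=
  LinearMap.range (Algebra.linearMap K F)

theorem mem_constRing {z : F} : z ∈ constRing K F ↔ ∃ c : K, algebraMap K F c = z := Iff.rfl

theorem polyRing_inf_infRing {x : F} (hx : Transcendental K x) :
    polyRing K x ⊓ infRing K x = constRing K F := by
  have hinj := transcendental_iff_injective.mp hx
  ext z
  rw [Submodule.mem_inf, mem_polyRing, mem_infRing, mem_constRing]
  constructor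
  · rintro ⟨⟨s, rfl⟩, p, q, hq, hd, h⟩
    rw [← map_mul] at h
    have hsq : s * q = p := hinj h
    rcases eq_or_ne s 0 with rfl | hs
    · exact ⟨0, by simp⟩
    · have : s.natDegree = 0 := by
        have := natDegree_mul hs hq
        rw [hsq] at this
        omega
      rw [eq_C_of_natDegree_eq_zero this]
      exact ⟨s.coeff 0, by simp⟩
  · rintro ⟨c, rfl⟩
    exact ⟨⟨C c, by simp⟩, C c, 1, one_ne_zero, by simp, by simp⟩

/-- Every element of `K(x)` is a polynomial in `x` plus an element of the ring at infinity. -/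
theorem exists_sub_mem_infRing {x : F} (r : K⟮x⟯) :
    ∃ s : K[X], (r : F) - aeval x s ∈ infRing K x := by
  obtain ⟨a, t, hr⟩ := (IntermediateField.mem_adjoin_simple_iff K (r : F)).mp r.2
  by_cases ht : aeval x t = 0
  · refine ⟨0, ?_⟩
    rw [hr, ht, div_zero, map_zero, sub_zero]
    exact Submodule.zero_mem _
  · have ht0 : t ≠ 0 := fun h => ht (by rw [h, map_zero])
    refine ⟨a / t, a % t, t, ht0, ?_, ?_⟩
    · exact natDegree_le_natDegree (le_of_lt (degree_mod_lt a ht0))
    · have h1 : a = t * (a / t) + a % t := (EuclideanDomain.div_add_mod a t).symm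
      have h2 : aeval x a = aeval x t * aeval x (a / t) + aeval x (a % t) := by
        rw [← map_mul, ← map_add, ← h1]
      rw [hr, sub_mul, div_mul_cancel₀ _ ht, h2]
      ring

/-- Every element of `K(x)` is a quotient of polynomials in `x`. -/
theorem exists_poly_repr {x : F} (r : K⟮x⟯) :
    ∃ s t : K[X], t ≠ 0 ∧ (r : F) * aeval x t = aeval x s := by
  obtain ⟨a, t, hr⟩ := (IntermediateField.mem_adjoin_simple_iff K (r : F)).mp r.2
  by_cases ht : aeval x t = 0
  · refine ⟨0, 1, one_ne_zero, ?_⟩
    rw [hr, ht, div_zero, map_zero, zero_mul]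
  · have ht0 : t ≠ 0 := fun h => ht (by rw [h, map_zero])
    exact ⟨a, t, ht0, by rw [hr, div_mul_cancel₀ _ ht]⟩

section Coord

variable {ι : Type*}

/-- The `K`-subspace of `F` of the elements all of whose coordinates with respect to the
`K(x)`-basis `b` lie in the `K`-subspace `S`. -/
def coordLattice (x : F) (b : Basis ι K⟮x⟯ F) (S : Submodule K F) : Submodule K F where
  carrier := {y | ∀ i, ((b.repr y i : K⟮x⟯) : F) ∈ S}
  zero_mem' := by
    intro i
    simp
  add_mem' := by
    intro y z hy hz i
    simpa using S.add_mem (hy i) (hz i)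
  smul_mem' := by
    intro c y hy i
    have h1 : b.repr (c • y) i = algebraMap K K⟮x⟯ c * b.repr y i := by
      rw [← algebraMap_smul K⟮x⟯ c y, map_smul, Finsupp.smul_apply, smul_eq_mul]
    show ((b.repr (c • y) i : K⟮x⟯) : F) ∈ S
    rw [h1]
    have h2 : ((algebraMap K K⟮x⟯ c * b.repr y i : K⟮x⟯) : F) = c • ((b.repr y i : K⟮x⟯) : F) := by
      rw [Algebra.smul_def]
      rfl
    rw [h2]
    exact S.smul_mem c (hy i)

theorem mem_coordLattice {x : F} {b : Basis ι K⟮x⟯ F} {S : Submodule K F} {y : F} :
    y ∈ coordLattice x b S ↔ ∀ i, ((b.repr y i : K⟮x⟯) : F) ∈ S := Iff.rfl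

theorem coordLattice_inf (x : F) (b : Basis ι K⟮x⟯ F) (S S' : Submodule K F) :
    coordLattice x b S ⊓ coordLattice x b S' = coordLattice x b (S ⊓ S') := by
  ext y
  simp only [Submodule.mem_inf, mem_coordLattice, forall_and]

theorem coordLattice_mono (x : F) (b : Basis ι K⟮x⟯ F) {S S' : Submodule K F} (h : S ≤ S') :
    coordLattice x b S ≤ coordLattice x b S' := fun _ hy i => h (hy i)

end Coord

/-! ### The degree of a rational function in `x` -/

/-- The degree `deg p - deg q` of an element `p(x)/q(x)` of `K(x) ⊆ F` (`0` for junk input). -/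
def ratDeg (K : Type*) {F : Type*} [Field K] [Field F] [Algebra K F] (x z : F) : ℤ :=
  open Classical in
  if h : ∃ d : ℤ, ∃ p q : K[X], p ≠ 0 ∧ q ≠ 0 ∧ z * aeval x q = aeval x p ∧
      d = (p.natDegree : ℤ) - q.natDegree then h.choose
  else 0

theorem ratDeg_eq {x : F} (hx : Transcendental K x) {z : F} {p q : K[X]} (hp : p ≠ 0)
    (hq : q ≠ 0) (h : z * aeval x q = aeval x p) :
    ratDeg K x z = (p.natDegree : ℤ) - q.natDegree := by
  have hinj := transcendental_iff_injective.mp hx
  have hex : ∃ d : ℤ, ∃ p q : K[X], p ≠ 0 ∧ q ≠ 0 ∧ z * aeval x q = aeval x p ∧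
      d = (p.natDegree : ℤ) - q.natDegree := ⟨_, p, q, hp, hq, h, rfl⟩
  rw [ratDeg, dif_pos hex]
  obtain ⟨p', q', hp', hq', h', hd⟩ := hex.choose_spec
  rw [hd]
  have hpq : p * q' = p' * q := by
    apply hinj
    rw [map_mul, map_mul, ← h, ← h']
    ring
  have hdeg := congrArg natDegree hpq
  rw [natDegree_mul hp hq', natDegree_mul hp' hq] at hdeg
  omega

theorem ratDeg_aeval {x : F} (hx : Transcendental K x) {p : K[X]} (hp : p ≠ 0) :
    ratDeg K x (aeval x p) = p.natDegree := by
  rw [ratDeg_eq hx hp one_ne_zero (by simp)]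
  simp

/-- The polynomial `p(x)` as an element of `K(x)`. -/
def polyE (x : F) : K[X] →ₐ[K] K⟮x⟯ := aeval (AdjoinSimple.gen K x)

@[simp]
theorem coe_polyE (x : F) (p : K[X]) : ((polyE x p : K⟮x⟯) : F) = aeval x p :=
  AdjoinSimple.coe_aeval_gen_apply K x p

theorem polyE_ne_zero {x : F} (hx : Transcendental K x) {p : K[X]} (hp : p ≠ 0) :
    polyE x p ≠ 0 := by
  intro h
  have h1 : aeval x p = 0 := by rw [← coe_polyE, h]; rfl
  exact hp (transcendental_iff_injective.mp hx (by rw [h1, map_zero]))

section Poly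

variable {ι : Type*} [Fintype ι]

/-- The `K`-linear map `(p i) ↦ ∑ i, p i (x) * b i`. -/
def polyMap (x : F) (b : ι → F) : (ι → K[X]) →ₗ[K] F where
  toFun p := ∑ i, aeval x (p i) * b i
  map_add' p q := by simp [add_mul, Finset.sum_add_distrib]
  map_smul' c p := by
    simp only [Pi.smul_apply, map_smul, RingHom.id_apply, Finset.smul_sum,
      Algebra.smul_mul_assoc]

theorem polyMap_apply (x : F) (b : ι → F) (p : ι → K[X]) :
    polyMap x b p = ∑ i, aeval x (p i) * b i := rfl

theorem polyMap_eq_sum_smul (x : F) (b : Basis ι K⟮x⟯ F) (p : ι → K[X]) :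
    polyMap x b p = ∑ i, polyE x (p i) • b i := by
  rw [polyMap_apply]
  refine Finset.sum_congr rfl fun i _ => ?_
  rw [IntermediateField.smul_def, coe_polyE, smul_eq_mul]

theorem repr_polyMap (x : F) (b : Basis ι K⟮x⟯ F) (p : ι → K[X]) (i : ι) :
    b.repr (polyMap x b p) i = polyE x (p i) := by
  rw [polyMap_eq_sum_smul, b.repr_sum_self]

theorem polyMap_injective {x : F} (hx : Transcendental K x) (b : Basis ι K⟮x⟯ F) :
    Function.Injective (polyMap (K := K) x (b : ι → F)) := by
  rw [← LinearMap.ker_eq_bot, LinearMap.ker_eq_bot']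
  intro p hp
  funext i
  have h1 : polyE x (p i) = 0 := by
    rw [← repr_polyMap x b p i, hp]
    simp
  by_contra hpi
  exact polyE_ne_zero hx hpi h1

theorem range_polyMap (x : F) (b : Basis ι K⟮x⟯ F) :
    LinearMap.range (polyMap (K := K) x (b : ι → F)) = coordLattice x b (polyRing K x) := by
  ext y
  rw [LinearMap.mem_range, mem_coordLattice]
  constructor
  · rintro ⟨p, rfl⟩ i
    rw [repr_polyMap, coe_polyE]
    exact ⟨p i, rfl⟩
  · intro h
    choose p hp using h
    refine ⟨p, ?_⟩
    rw [polyMap_apply]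
    conv_rhs => rw [← b.sum_repr y]
    refine Finset.sum_congr rfl fun i _ => ?_
    rw [IntermediateField.smul_def, smul_eq_mul, ← hp i]
    rfl

theorem polyMap_mem (x : F) (b : Basis ι K⟮x⟯ F) (p : ι → K[X]) :
    polyMap x b p ∈ coordLattice x b (polyRing K x) := by
  rw [← range_polyMap]
  exact LinearMap.mem_range_self _ p

/-- The base case: for one and the same basis the two lattices meet in `⊕ K b i` and span `F`. -/
theorem isChi_base {x : F} (hx : Transcendental K x) (b : Basis ι K⟮x⟯ F) :
    IsChi (coordLattice x b (polyRing K x)) (coordLattice x b (infRing K x))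
      (Fintype.card ι) := by
  classical
  have hspan : coordLattice x b (constRing K F) = Submodule.span K (Set.range b) := by
    apply le_antisymm
    · intro y hy
      rw [← b.sum_repr y]
      refine Submodule.sum_mem _ fun i _ => ?_
      obtain ⟨c, hc⟩ := hy i
      have : b.repr y i • b i = c • b i := by
        rw [IntermediateField.smul_def, smul_eq_mul, ← hc, Algebra.linearMap_apply,
          Algebra.smul_def]
      rw [this]
      exact Submodule.smul_mem _ c (Submodule.subset_span ⟨i, rfl⟩)
    · rw [Submodule.span_le]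
      rintro _ ⟨j, rfl⟩ i
      rw [b.repr_self, Finsupp.single_apply]
      split_ifs
      · exact ⟨1, by simp⟩
      · exact ⟨0, by simp⟩
  have hli : LinearIndependent K (b : ι → F) := by
    refine b.linearIndependent.restrict_scalars ?_
    intro c d hcd
    have h1 : algebraMap K K⟮x⟯ c = algebraMap K K⟮x⟯ d := by
      simpa [Algebra.smul_def] using hcd
    exact (algebraMap K K⟮x⟯).injective h1
  have hsup : coordLattice x b (polyRing K x) ⊔ coordLattice x b (infRing K x) = ⊤ := by
    rw [eq_top_iff]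
    intro y _
    choose s hs using fun i => exists_sub_mem_infRing (K := K) (x := x) (b.repr y i)
    have h1 : y = polyMap x b s + (y - polyMap x b s) := by abel
    rw [h1]
    refine Submodule.add_mem_sup (polyMap_mem x b s) ?_
    intro i
    rw [map_sub, Finsupp.sub_apply, repr_polyMap]
    have : ((b.repr y i - polyE x (s i) : K⟮x⟯) : F) = (b.repr y i : F) - aeval x (s i) := by
      rw [← coe_polyE]; rfl
    rw [this]
    exact hs i
  unfold IsChi
  rw [coordLattice_inf, polyRing_inf_infRing hx, hspan, hsup]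
  have hsub : Subsingleton (F ⧸ (⊤ : Submodule K F)) :=
    Submodule.Quotient.subsingleton_iff.mpr rfl
  refine ⟨FiniteDimensional.span_of_finite K (Set.finite_range b), inferInstance, ?_⟩
  rw [finrank_span_eq_card hli, finrank_zero_of_subsingleton]
  simp

theorem polyMap_of_matrix (x : F) (b c : ι → F) (P : Matrix ι ι K[X])
    (hP : ∀ j, c j = ∑ i, aeval x (P i j) * b i) (q : ι → K[X]) :
    polyMap x c q = polyMap x b (P.mulVec q) := by
  rw [polyMap_apply, polyMap_apply]
  have h1 : ∀ j, aeval x (q j) * c j = ∑ i, aeval x (P i j * q j) * b i := by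
    intro j
    rw [hP j, Finset.mul_sum]
    refine Finset.sum_congr rfl fun i _ => ?_
    rw [map_mul]
    ring
  rw [Finset.sum_congr rfl fun j _ => h1 j, Finset.sum_comm]
  refine Finset.sum_congr rfl fun i _ => ?_
  rw [Matrix.mulVec, dotProduct, map_sum, Finset.sum_mul]

variable [DecidableEq ι]

/-- **Index of a sublattice.**  If the basis `c` is expressed in the basis `b` by a matrix `P`
with polynomial entries, then `⊕ K[x] c i ⊆ ⊕ K[x] b i` with `K`-codimension `deg (det P)`. -/
theorem isIndex_polyLattice {x : F} (hx : Transcendental K x) (b c : Basis ι K⟮x⟯ F)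
    (P : Matrix ι ι K[X]) (hP : ∀ j, c j = ∑ i, aeval x (P i j) * b i) :
    IsIndex (coordLattice x c (polyRing K x)) (coordLattice x b (polyRing K x))
      P.det.natDegree := by
  have key := polyMap_of_matrix x (b : ι → F) (c : ι → F) P hP
  have hinjb := polyMap_injective hx b
  have hinjc := polyMap_injective hx c
  have hdet : P.det ≠ 0 := by
    intro h0
    obtain ⟨v, hv, hPv⟩ := Matrix.exists_mulVec_eq_zero_iff.mpr h0
    apply hv
    apply hinjc
    rw [key, hPv, map_zero, map_zero]
  have hle : coordLattice x c (polyRing K x) ≤ coordLattice x b (polyRing K x) := by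
    rw [← range_polyMap, ← range_polyMap]
    rintro _ ⟨q, rfl⟩
    exact ⟨P.mulVec q, (key q).symm⟩
  let e : (ι → K[X]) ≃ₗ[K] ↥(coordLattice x b (polyRing K x)) :=
    (LinearEquiv.ofInjective (polyMap (K := K) x (b : ι → F)) hinjb).trans
      (LinearEquiv.ofEq _ _ (range_polyMap x b))
  have he : ∀ w, (e w : F) = polyMap x b w := fun w => rfl
  have hp : ∀ w : ι → K[X], w ∈ (LinearMap.range (Matrix.toLin' P)).restrictScalars K ↔
      (e w : F) ∈ coordLattice x c (polyRing K x) := by
    intro w
    rw [he, ← range_polyMap, Submodule.restrictScalars_mem, LinearMap.mem_range,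
      LinearMap.mem_range]
    constructor
    · rintro ⟨q, rfl⟩
      exact ⟨q, by rw [key, Matrix.toLin'_apply]⟩
    · rintro ⟨q, hq⟩
      refine ⟨q, ?_⟩
      rw [key] at hq
      rw [Matrix.toLin'_apply]
      exact hinjb hq
  obtain ⟨hfd, hfr⟩ := finrank_quotient_range_eq_natDegree_det (K := K) (Pi.basisFun K[X] ι)
    (Matrix.toLin' P) (by rw [LinearMap.det_toLin']; exact hdet)
  let E := Submodule.Quotient.restrictScalarsEquiv K (LinearMap.range (Matrix.toLin' P))
  have hfd' : FiniteDimensional K
      ((ι → K[X]) ⧸ (LinearMap.range (Matrix.toLin' P)).restrictScalars K) :=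
    Module.Finite.equiv E.symm
  refine IsIndex.of_equiv e _ hp hle ?_
  rw [E.finrank_eq, hfr, LinearMap.det_toLin']

/-- A common denominator for a matrix with entries in `K(x)`. -/
theorem exists_common_denominator {x : F} (S : Matrix ι ι K⟮x⟯) :
    ∃ (p : K[X]) (Q : Matrix ι ι K[X]), p ≠ 0 ∧
      ∀ i j, ((S i j : K⟮x⟯) : F) * aeval x p = aeval x (Q i j) := by
  choose s t ht hst using fun ij : ι × ι => exists_poly_repr (K := K) (x := x) (S ij.1 ij.2)
  refine ⟨∏ ij, t ij, fun i j => s (i, j) * ∏ ij ∈ Finset.univ.erase (i, j), t ij,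
    Finset.prod_ne_zero_iff.mpr fun ij _ => ht ij, fun i j => ?_⟩
  rw [← Finset.mul_prod_erase Finset.univ t (Finset.mem_univ (i, j)), map_mul, map_mul,
    ← mul_assoc, hst (i, j)]

/-- **Riemann–Roch for lattices on the projective line.**  For two `K(x)`-bases `b`, `b'` of
`F`, the `K[x]`-lattice of `b` and the lattice at infinity of `b'` satisfy
`dim (M ⊓ M') - dim (F ⧸ (M ⊔ M')) = n + deg (det T)`, where `T` is the matrix of `b'` in the
basis `b`. -/
theorem isChi_polyLattice_infLattice {x : F} (hx : Transcendental K x)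
    (b b' : Basis ι K⟮x⟯ F) :
    IsChi (coordLattice x b (polyRing K x)) (coordLattice x b' (infRing K x))
      (Fintype.card ι + ratDeg K x (((b.toMatrix b').det : K⟮x⟯) : F)) := by
  obtain ⟨p, Q, hp, hQ⟩ := exists_common_denominator (x := x) (b'.toMatrix b)
  have hpE : polyE x p ≠ 0 := polyE_ne_zero hx hp
  -- the scaled basis `c = p(x) • b`
  let c : Basis ι K⟮x⟯ F := b.isUnitSMul (w := fun _ => polyE x p) fun _ => IsUnit.mk0 _ hpE
  have hc : ∀ j, c j = aeval x p * b j := by
    intro j
    rw [Basis.isUnitSMul_apply, IntermediateField.smul_def, coe_polyE, smul_eq_mul]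
  -- `c` in terms of `b`
  have hP1 : ∀ j, c j = ∑ i, aeval x ((Matrix.diagonal fun _ : ι => p) i j) * b i := by
    intro j
    rw [hc, Finset.sum_eq_single j]
    · rw [Matrix.diagonal_apply_eq]
    · intro i _ hij
      rw [Matrix.diagonal_apply_ne _ hij, map_zero, zero_mul]
    · intro h
      exact absurd (Finset.mem_univ j) h
  -- `c` in terms of `b'`
  have hP2 : ∀ j, c j = ∑ i, aeval x (Q i j) * b' i := by
    intro j
    rw [hc]
    conv_lhs => rw [← b'.sum_repr (b j)]
    rw [Finset.mul_sum]
    refine Finset.sum_congr rfl fun i _ => ?_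
    rw [IntermediateField.smul_def, smul_eq_mul, ← hQ i j, Basis.toMatrix_apply]
    ring
  have I1 := isIndex_polyLattice hx b c _ hP1
  have I2 := isIndex_polyLattice hx b' c Q hP2
  have h2 := ((isChi_base hx b').down_left I2).up_left I1
  -- the determinant identity
  have hdetdiag : (Matrix.diagonal fun _ : ι => p).det = p ^ Fintype.card ι := by
    rw [Matrix.det_diagonal, Finset.prod_const, Finset.card_univ]
  have hQE : Q.map (polyE x) = polyE x p • b'.toMatrix b := by
    ext i j
    rw [Matrix.map_apply, Matrix.smul_apply, smul_eq_mul]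
    show ((polyE x (Q i j) : K⟮x⟯) : F)
      = ((polyE x p : K⟮x⟯) : F) * ((b'.toMatrix b i j : K⟮x⟯) : F)
    rw [coe_polyE, coe_polyE, ← hQ i j, mul_comm]
  have hdetQ : polyE x Q.det = polyE x p ^ Fintype.card ι * (b'.toMatrix b).det := by
    have h1 : polyE x Q.det = (Q.map (polyE x)).det := by
      have := AlgHom.map_det (polyE (K := K) x) Q
      rw [this]
      rfl
    rw [h1, hQE, Matrix.det_smul]
  have hTS : (b.toMatrix b').det * (b'.toMatrix b).det = 1 := by
    rw [← Matrix.det_mul, Basis.toMatrix_mul_toMatrix_flip, Matrix.det_one]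
  have hrel : (((b.toMatrix b').det : K⟮x⟯) : F) * aeval x Q.det
      = aeval x (p ^ Fintype.card ι) := by
    have h3 : (b.toMatrix b').det * polyE x Q.det = polyE x (p ^ Fintype.card ι) := by
      rw [hdetQ, map_pow, mul_left_comm, hTS, mul_one]
    have h4 := congrArg (fun z : K⟮x⟯ => (z : F)) h3
    simpa using h4
  have hpn : p ^ Fintype.card ι ≠ 0 := pow_ne_zero _ hp
  have hQdet : Q.det ≠ 0 := by
    intro h0
    rw [h0, map_zero, mul_zero] at hrel
    exact hpn (transcendental_iff_injective.mp hx (by rw [← hrel, map_zero]))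
  have hdeg := ratDeg_eq hx hpn hQdet hrel
  refine h2.congr ?_
  rw [hdeg, hdetdiag]
  ring

end Poly

end Fermat.Agent.Lib.FF.GenusDisc
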