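import Mathlib
import Fermat.Agent.Lib.FF.GenusDisc.Lattice
import Fermat.Agent.Lib.FF.RRApprox

/-!
# The genus from the transition matrix between a finite and an infinite integral basis

Let `F/K` be a function field (`IsFF1 K F x`), `n = [F : K(x)]`.  Let `b` be a `K(x)`-basis of
`F` which is a `K[x]`-basis of the ring `finPart K x` of functions regular away from the poles
of `x`, and `b'` a `K(x)`-basis which is an `O_∞`-basis of the ring `infPart K x 0` of
functions regular at the poles of `x`.  Then (`one_sub_genus_eq`)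

  `1 - genusFF K F = n + deg (det T)`,  `T` the matrix of `b'` in the basis `b`,

and the pole divisor of `x` has degree `n` (`degree_poleDiv_eq`).
-/

set_option autoImplicit false

noncomputable section

namespace Fermat.Agent.Lib.FF.GenusDisc

open AlgebraicCurve IntermediateField Polynomial Module WithZero

variable {K F : Type*} [Field K] [Field F] [Algebra K F]

/-- The functions regular at all places which are not poles of `x`. -/
def finPart (K : Type*) {F : Type*} [Field K] [Field F] [Algebra K F] (x : F) :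
    Submodule K F where
  carrier := {y | ∀ P : Place K F, 0 ≤ P.ord x → P.adicValuation y ≤ 1}
  zero_mem' := by
    intro P _
    simp
  add_mem' := by
    intro y z hy hz P hP
    exact (Valuation.map_add _ _ _).trans (max_le (hy P hP) (hz P hP))
  smul_mem' := by
    intro c y hy P hP
    show P.adicValuation (c • y) ≤ 1
    rw [Algebra.smul_def, map_mul]
    exact (mul_le_of_le_one_left' (P.adicValuation_algebraMap_le_one c)).trans (hy P hP)

theorem mem_finPart {x y : F} :
    y ∈ finPart K x ↔ ∀ P : Place K F, 0 ≤ P.ord x → y = 0 ∨ 0 ≤ P.ord y := by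
  show (∀ P : Place K F, 0 ≤ P.ord x → P.adicValuation y ≤ 1) ↔ _
  exact forall_congr' fun P => imp_congr_right fun _ => P.adicValuation_le_one_iff

/-- The functions whose pole order at every pole `P` of `x` is at most `m` times that of `x`. -/
def infPart (K : Type*) {F : Type*} [Field K] [Field F] [Algebra K F] (x : F) (m : ℤ) :
    Submodule K F where
  carrier := {y | ∀ P : Place K F, P.ord x < 0 → P.adicValuation y ≤ exp (-(m * P.ord x))}
  zero_mem' := by
    intro P _
    simp
  add_mem' := by
    intro y z hy hz P hP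
    exact (Valuation.map_add _ _ _).trans (max_le (hy P hP) (hz P hP))
  smul_mem' := by
    intro c y hy P hP
    show P.adicValuation (c • y) ≤ _
    rw [Algebra.smul_def, map_mul]
    exact (mul_le_of_le_one_left' (P.adicValuation_algebraMap_le_one c)).trans (hy P hP)

theorem mem_infPart {x y : F} {m : ℤ} :
    y ∈ infPart K x m ↔ ∀ P : Place K F, P.ord x < 0 → y = 0 ∨ m * P.ord x ≤ P.ord y := by
  show (∀ P : Place K F, P.ord x < 0 → P.adicValuation y ≤ exp (-(m * P.ord x))) ↔ _
  refine forall_congr' fun P => imp_congr_right fun _ => ?_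
  rw [P.adicValuation_le_exp_iff, neg_neg]

theorem infPart_mono (x : F) {m m' : ℤ} (hmm : m ≤ m') : infPart K x m ≤ infPart K x m' := by
  intro y hy
  rw [mem_infPart] at hy ⊢
  intro P hP
  rcases hy P hP with h0 | h1
  · exact Or.inl h0
  · right
    have : m' * P.ord x ≤ m * P.ord x := mul_le_mul_of_nonpos_right hmm hP.le
    omega

/-- `finPart ⊓ infPart m` is the Riemann–Roch space of `m` times the pole divisor of `x`. -/
theorem finPart_inf_infPart {x : F} (h : IsFF1 K F x) (m : ℕ) :
    finPart K x ⊓ infPart K x m = riemannRochSpace ((m : ℤ) • h.poleDiv) := by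
  ext y
  rw [Submodule.mem_inf, mem_finPart, mem_infPart, mem_riemannRochSpace_iff]
  have hD : ∀ v : Place K F, ((m : ℤ) • h.poleDiv) v = m * max (-(v.ord x)) 0 := by
    intro v
    rw [Finsupp.smul_apply, h.poleDiv_apply, smul_eq_mul]
  constructor
  · rintro ⟨h1, h2⟩ v
    rw [hD]
    by_cases hv : v.ord x < 0
    · rcases h2 v hv with h0 | h3
      · exact Or.inl h0
      · right
        rw [max_eq_left (by omega)]
        linarith
    · rcases h1 v (by omega) with h0 | h3
      · exact Or.inl h0
      · right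
        rw [max_eq_right (by omega)]
        simpa using h3
  · intro hy
    refine ⟨fun P hP => ?_, fun P hP => ?_⟩
    · rcases hy P with h0 | h3
      · exact Or.inl h0
      · right
        rw [hD, max_eq_right (by omega)] at h3
        simpa using h3
    · rcases hy P with h0 | h3
      · exact Or.inl h0
      · right
        rw [hD, max_eq_left (by omega)] at h3
        linarith

/-- Every function lies in `infPart K x m` for `m` large. -/
theorem exists_mem_infPart {x : F} (h : IsFF1 K F x) (y : F) : ∃ m : ℕ, y ∈ infPart K x m := by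
  classical
  obtain ⟨hfin, -⟩ := h.poles_le
  refine ⟨∑ P ∈ hfin.toFinset, (P.ord y).natAbs, ?_⟩
  rw [mem_infPart]
  intro P hP
  right
  have hPS : P ∈ hfin.toFinset := hfin.mem_toFinset.mpr hP
  have h1 : (P.ord y).natAbs ≤ ∑ P ∈ hfin.toFinset, (P.ord y).natAbs :=
    Finset.single_le_sum (f := fun P : Place K F => (P.ord y).natAbs)
      (fun _ _ => Nat.zero_le _) hPS
  have h2 : ((∑ P ∈ hfin.toFinset, (P.ord y).natAbs : ℕ) : ℤ) * P.ord x
      ≤ ((∑ P ∈ hfin.toFinset, (P.ord y).natAbs : ℕ) : ℤ) * (-1) :=
    mul_le_mul_of_nonneg_left (by omega) (by positivity)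
  omega

/-- If `F / (finPart + infPart 0)` is finite-dimensional then `finPart + infPart m = F` for
large `m`. -/
theorem exists_sup_infPart_eq_top {x : F} (h : IsFF1 K F x)
    (hfd : FiniteDimensional K (F ⧸ (finPart K x ⊔ infPart K x 0))) :
    ∃ M : ℕ, ∀ m : ℕ, M ≤ m → finPart K x ⊔ infPart K x m = ⊤ := by
  classical
  set N₀ := finPart K x ⊔ infPart K x 0 with hN₀
  let B := Module.finBasis K (F ⧸ N₀)
  choose y hy using fun k => Submodule.mkQ_surjective N₀ (B k)
  choose μ hμ using fun k => exists_mem_infPart h (y k)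
  refine ⟨∑ k, μ k, fun m hm => ?_⟩
  rw [eq_top_iff]
  intro v _
  have hle0 : N₀ ≤ finPart K x ⊔ infPart K x m :=
    sup_le_sup_left (infPart_mono x (by positivity)) _
  have hyk : ∀ k, y k ∈ finPart K x ⊔ infPart K x m := by
    intro k
    refine Submodule.mem_sup_right (infPart_mono x ?_ (hμ k))
    have : μ k ≤ ∑ k, μ k :=
      Finset.single_le_sum (f := μ) (fun _ _ => Nat.zero_le _) (Finset.mem_univ k)
    exact_mod_cast this.trans hm
  have hv : N₀.mkQ v = N₀.mkQ (∑ k, B.repr (N₀.mkQ v) k • y k) := by
    rw [map_sum]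
    conv_lhs => rw [← B.sum_repr (N₀.mkQ v)]
    refine Finset.sum_congr rfl fun k _ => ?_
    rw [map_smul, hy k]
  have hdiff : v - ∑ k, B.repr (N₀.mkQ v) k • y k ∈ N₀ := by
    rw [← Submodule.Quotient.mk_eq_zero, Submodule.Quotient.mk_sub]
    exact sub_eq_zero.mpr hv
  have : v = (v - ∑ k, B.repr (N₀.mkQ v) k • y k) + ∑ k, B.repr (N₀.mkQ v) k • y k := by abel
  rw [this]
  exact Submodule.add_mem _ (hle0 hdiff)
    (Submodule.sum_mem _ fun k _ => Submodule.smul_mem _ _ (hyk k))

section Scaled

variable {ι : Type*}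

theorem gen_ne_zero {x : F} (hx : Transcendental K x) : AdjoinSimple.gen K x ≠ 0 := by
  intro h0
  have : x = 0 := by
    have := congrArg (fun z : K⟮x⟯ => (z : F)) h0
    simpa using this
  exact hx (this ▸ isAlgebraic_zero)

/-- The basis `x ^ m • b`. -/
def scaledBasis {x : F} (hx : Transcendental K x) (b : Basis ι K⟮x⟯ F) (m : ℕ) :
    Basis ι K⟮x⟯ F :=
  b.isUnitSMul (w := fun _ => AdjoinSimple.gen K x ^ m) fun _ =>
    IsUnit.mk0 _ (pow_ne_zero _ (gen_ne_zero hx))

theorem scaledBasis_apply {x : F} (hx : Transcendental K x) (b : Basis ι K⟮x⟯ F) (m : ℕ)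
    (i : ι) : scaledBasis hx b m i = AdjoinSimple.gen K x ^ m • b i :=
  Basis.isUnitSMul_apply _ i

theorem repr_scaledBasis {x : F} (hx : Transcendental K x) (b : Basis ι K⟮x⟯ F) (m : ℕ)
    (y : F) (i : ι) :
    (scaledBasis hx b m).repr y i = b.repr ((AdjoinSimple.gen K x ^ m)⁻¹ • y) i := by
  rw [scaledBasis, Basis.repr_isUnitSMul, map_smul, Finsupp.smul_apply, smul_eq_mul,
    Units.smul_def, smul_eq_mul, Units.val_inv_eq_inv_val, IsUnit.unit_spec]

theorem toMatrix_scaledBasis {x : F} (hx : Transcendental K x) (b b' : Basis ι K⟮x⟯ F)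
    (m : ℕ) : b.toMatrix (scaledBasis hx b' m) = AdjoinSimple.gen K x ^ m • b.toMatrix b' := by
  ext i j
  rw [Basis.toMatrix_apply, scaledBasis_apply, map_smul, Finsupp.smul_apply,
    Matrix.smul_apply, Basis.toMatrix_apply]

variable [Fintype ι] [DecidableEq ι]

theorem det_toMatrix_ne_zero {x : F} (b b' : Basis ι K⟮x⟯ F) : (b.toMatrix b').det ≠ 0 := by
  intro h0
  have hTS : (b.toMatrix b').det * (b'.toMatrix b).det = 1 := by
    rw [← Matrix.det_mul, Basis.toMatrix_mul_toMatrix_flip, Matrix.det_one]
  rw [h0, zero_mul] at hTS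
  exact zero_ne_one hTS

theorem ratDeg_det_scaled {x : F} (hx : Transcendental K x) (b b' : Basis ι K⟮x⟯ F) (m : ℕ) :
    ratDeg K x (((b.toMatrix (scaledBasis hx b' m)).det : K⟮x⟯) : F)
      = m * Fintype.card ι + ratDeg K x (((b.toMatrix b').det : K⟮x⟯) : F) := by
  obtain ⟨s, t, ht, hst⟩ := exists_poly_repr (K := K) (x := x) (b.toMatrix b').det
  have hinj := transcendental_iff_injective.mp hx
  have hs : s ≠ 0 := by
    intro h0
    rw [h0, map_zero] at hst
    have ht' : aeval x t ≠ 0 := fun h => ht (hinj (by rw [h, map_zero]))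
    rcases mul_eq_zero.mp hst with h1 | h1
    · exact det_toMatrix_ne_zero (x := x) b b' (Subtype.ext h1)
    · exact ht' h1
  rw [ratDeg_eq hx hs ht hst, toMatrix_scaledBasis, Matrix.det_smul]
  have h2 : (((AdjoinSimple.gen K x ^ m) ^ Fintype.card ι * (b.toMatrix b').det : K⟮x⟯) : F)
      * aeval x t = aeval x (X ^ (m * Fintype.card ι) * s) := by
    rw [map_mul, map_pow, aeval_X, ← hst, pow_mul]
    have : (((AdjoinSimple.gen K x ^ m) ^ Fintype.card ι * (b.toMatrix b').det : K⟮x⟯) : F)
        = (x ^ m) ^ Fintype.card ι * (((b.toMatrix b').det : K⟮x⟯) : F) := rfl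
    rw [this]
    ring
  rw [ratDeg_eq hx (mul_ne_zero (pow_ne_zero _ X_ne_zero) hs) ht h2, natDegree_X_pow_mul _ hs]
  push_cast
  ring

omit [Fintype ι] [DecidableEq ι] in
/-- Membership in the lattice of the scaled basis. -/
theorem mem_coordLattice_scaledBasis {x : F} (hx : Transcendental K x) (b : Basis ι K⟮x⟯ F)
    (m : ℕ) (S : Submodule K F) (y : F) :
    y ∈ coordLattice x (scaledBasis hx b m) S ↔ (x ^ m)⁻¹ * y ∈ coordLattice x b S := by
  have : (x ^ m)⁻¹ * y = (AdjoinSimple.gen K x ^ m)⁻¹ • y := by
    rw [IntermediateField.smul_def, smul_eq_mul]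
    rfl
  rw [this, mem_coordLattice, mem_coordLattice]
  refine forall_congr' fun i => ?_
  rw [repr_scaledBasis]

theorem mem_infPart_iff_scaled {x : F} (hx : Transcendental K x) (m : ℕ) (y : F) :
    y ∈ infPart K x m ↔ (x ^ m)⁻¹ * y ∈ infPart K x 0 := by
  have hx0 : x ≠ 0 := fun h => hx (h ▸ isAlgebraic_zero)
  rw [mem_infPart, mem_infPart]
  refine forall_congr' fun P => imp_congr_right fun hP => ?_
  rcases eq_or_ne y 0 with rfl | hy
  · simp
  · have hne : (x ^ m)⁻¹ ≠ 0 := inv_ne_zero (pow_ne_zero _ hx0)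
    have hord : P.ord ((x ^ m)⁻¹ * y) = -(m * P.ord x) + P.ord y := by
      rw [P.ord_mul hne hy, P.ord_inv, ← zpow_natCast, P.ord_zpow]
    simp only [hy, mul_eq_zero, hne, false_or, zero_mul, hord, or_self]
    constructor <;> intro h <;> linarith

end Scaled

section Main

variable {ι : Type*} [Fintype ι] [DecidableEq ι] {x : F}

/-- The Euler characteristic of `finPart` and `infPart m` in terms of the transition matrix. -/
theorem isChi_finPart_infPart (hx : Transcendental K x) (b b' : Basis ι K⟮x⟯ F)
    (hb : coordLattice x b (polyRing K x) = finPart K x)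
    (hb' : coordLattice x b' (infRing K x) = infPart K x 0) (m : ℕ) :
    IsChi (finPart K x) (infPart K x m)
      (Fintype.card ι + (m * Fintype.card ι
        + ratDeg K x (((b.toMatrix b').det : K⟮x⟯) : F))) := by
  have hm : coordLattice x (scaledBasis hx b' m) (infRing K x) = infPart K x m := by
    ext y
    rw [mem_coordLattice_scaledBasis, hb', ← mem_infPart_iff_scaled hx]
  have := isChi_polyLattice_infLattice hx b (scaledBasis hx b' m)
  rw [hb, hm, ratDeg_det_scaled] at this
  exact this

/-- **Genus from the transition matrix.**  `1 - g = n + deg (det T)` where `T` is the matrix of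
an integral basis at infinity in terms of a finite integral basis; moreover the pole divisor of
`x` has degree `n`. -/
theorem genus_and_degree (h : IsFF1 K F x) (b b' : Basis ι K⟮x⟯ F)
    (hb : coordLattice x b (polyRing K x) = finPart K x)
    (hb' : coordLattice x b' (infRing K x) = infPart K x 0) :
    (1 : ℤ) - genusFF K F
        = Fintype.card ι + ratDeg K x (((b.toMatrix b').det : K⟮x⟯) : F) ∧
      Divisor.degree h.poleDiv = Fintype.card ι := by
  have hx := h.transcendental
  set δ := ratDeg K x (((b.toMatrix b').det : K⟮x⟯) : F) with hδ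
  have hchi := isChi_finPart_infPart hx b b' hb hb'
  obtain ⟨M₁, hM₁⟩ := exists_sup_infPart_eq_top h (by simpa using (hchi 0).2.1)
  obtain ⟨c, hc⟩ := h.exists_degree_bound
  set d := Divisor.degree h.poleDiv with hd
  have hdpos : 0 < d := h.degree_poleDiv_pos
  have key : ∀ m : ℕ, M₁ ≤ m → c ≤ m →
      (m : ℤ) * d + 1 - genusFF K F = Fintype.card ι + (m * Fintype.card ι + δ) := by
    intro m hm hcm
    have hdeg : Divisor.degree ((m : ℤ) • h.poleDiv) = m * d := by
      rw [map_zsmul, smul_eq_mul]
    have hRR := (hc ((m : ℤ) • h.poleDiv) (by rw [hdeg]; nlinarith)).2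
    obtain ⟨-, -, hχ⟩ := hchi m
    have htop := hM₁ m hm
    have hsub : Subsingleton (F ⧸ (finPart K x ⊔ infPart K x m)) :=
      Submodule.Quotient.subsingleton_iff.mpr htop
    have h0 : finrank K (F ⧸ (finPart K x ⊔ infPart K x m)) = 0 :=
      finrank_zero_of_subsingleton
    rw [h0, finPart_inf_infPart h m, hRR, hdeg] at hχ
    simpa using hχ
  set M := max M₁ c.toNat with hM
  have h1 := key M (le_max_left _ _) (by
    have := Int.self_le_toNat c
    have h2 : c.toNat ≤ M := le_max_right _ _
    omega)
  have h2 := key (M + 1) (by have := le_max_left M₁ c.toNat; omega) (by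
    have := Int.self_le_toNat c
    have h2 : c.toNat ≤ M := le_max_right _ _
    push_cast
    omega)
  push_cast at h2
  have hdn : d = Fintype.card ι := by linarith
  refine ⟨?_, hdn⟩
  rw [hdn] at h1
  linarith

theorem one_sub_genus_eq (h : IsFF1 K F x) (b b' : Basis ι K⟮x⟯ F)
    (hb : coordLattice x b (polyRing K x) = finPart K x)
    (hb' : coordLattice x b' (infRing K x) = infPart K x 0) :
    (1 : ℤ) - genusFF K F
      = Fintype.card ι + ratDeg K x (((b.toMatrix b').det : K⟮x⟯) : F) :=
  (genus_and_degree h b b' hb hb').1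

theorem degree_poleDiv_eq (h : IsFF1 K F x) (b b' : Basis ι K⟮x⟯ F)
    (hb : coordLattice x b (polyRing K x) = finPart K x)
    (hb' : coordLattice x b' (infRing K x) = infPart K x 0) :
    Divisor.degree h.poleDiv = Fintype.card ι :=
  (genus_and_degree h b b' hb hb').2

end Main

end Fermat.Agent.Lib.FF.GenusDisc
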